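import Fermat.Agent.S27.H566.TangentRank

/-!
# S27 / DIM (helper566): tangent spaces and formally etale maps

`R → T` a formally etale map of `k`-algebras (e.g. a localization, an isomorphism),
`x' : T →ₐ[k] k` a `k`-point of `T`, `x := x' ∘ (R → T)`.  Then restriction of derivations
`Der_k(T, k_{x'}) → Der_k(R, k_x)` is bijective; in particular the tangent spaces have the same
dimension.
-/

set_option autoImplicit false
set_option linter.style.haveILetI false

namespace Fermat.Agent.S27.H566

open Algebra KaehlerDifferential
open scoped TensorProduct

variable {k R T : Type*} [Field k] [CommRing R] [CommRing T] [Algebra k R] [Algebra k T]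
  [Algebra R T] [IsScalarTower k R T]

/-- The point of `R` under a point of `T`. -/
def pointRestrict (x' : T →ₐ[k] k) : R →ₐ[k] k := x'.comp (IsScalarTower.toAlgHom k R T)

theorem pointRestrict_apply (x' : T →ₐ[k] k) (r : R) :
    pointRestrict (R := R) x' r = x' (algebraMap R T r) := rfl

theorem pointRestrict_isScalarTower (x' : T →ₐ[k] k) :
    letI := pointModule x'
    letI := pointModule (pointRestrict (R := R) x')
    IsScalarTower R T k := by
  letI := pointModule x'
  letI := pointModule (pointRestrict (R := R) x')
  refine ⟨fun r t m => ?_⟩
  show x' (r • t) * m = x' (algebraMap R T r) * (x' t * m)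
  rw [Algebra.smul_def, map_mul, mul_assoc]

/-- Restriction of derivations along `R → T`, as a `k`-linear map. -/
noncomputable def derRestrict (x' : T →ₐ[k] k) :
    letI := pointModule x'
    letI := pointModule (pointRestrict (R := R) x')
    haveI := pointModule_isScalarTower x'
    haveI := pointModule_isScalarTower (pointRestrict (R := R) x')
    haveI := pointModule_smulCommClass x'
    haveI := pointModule_smulCommClass (pointRestrict (R := R) x')
    Derivation k T k →ₗ[k] Derivation k R k := by
  letI := pointModule x'
  letI := pointModule (pointRestrict (R := R) x')
  haveI := pointModule_isScalarTower x'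
  haveI := pointModule_isScalarTower (pointRestrict (R := R) x')
  haveI := pointModule_smulCommClass x'
  haveI := pointModule_smulCommClass (pointRestrict (R := R) x')
  haveI := pointRestrict_isScalarTower (R := R) x'
  exact
    { toFun := fun d => d.compAlgebraMap R
      map_add' := fun _ _ => rfl
      map_smul' := fun _ _ => rfl }

theorem derRestrict_apply (x' : T →ₐ[k] k)
    (d : letI := pointModule x'; Derivation k T k) (r : R) :
    letI := pointModule x'
    letI := pointModule (pointRestrict (R := R) x')
    derRestrict (R := R) x' d r = d (algebraMap R T r) := rfl

/-- Restriction of derivations along a formally etale map is bijective. -/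
theorem derRestrict_bijective [FormallyEtale R T] (x' : T →ₐ[k] k) :
    Function.Bijective (derRestrict (R := R) x') := by
  letI := pointModule x'
  letI := pointModule (pointRestrict (R := R) x')
  haveI := pointModule_isScalarTower x'
  haveI := pointModule_isScalarTower (pointRestrict (R := R) x')
  haveI := pointModule_smulCommClass x'
  haveI := pointModule_smulCommClass (pointRestrict (R := R) x')
  haveI := pointRestrict_isScalarTower (R := R) x'
  have hbc : IsBaseChange T (KaehlerDifferential.map k k R T) :=
    KaehlerDifferential.isBaseChange_of_formallyEtale k R T
  constructor
  · rw [injective_iff_map_eq_zero]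
    intro d hd
    have hd' : ∀ r : R, d (algebraMap R T r) = 0 := fun r =>
      congrArg (fun D : Derivation k R k => D r) hd
    have hz : d.liftKaehlerDifferential = 0 := by
      refine hbc.algHom_ext' _ _ ?_
      refine Derivation.liftKaehlerDifferential_unique _ _ (Derivation.ext fun r => ?_)
      show d.liftKaehlerDifferential (KaehlerDifferential.map k k R T (D k R r)) =
        (0 : Ω[T⁄k] →ₗ[T] k) (KaehlerDifferential.map k k R T (D k R r))
      rw [KaehlerDifferential.map_D, Derivation.liftKaehlerDifferential_comp_D, hd' r]
      rfl
    rw [← d.liftKaehlerDifferential_comp, hz]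
    ext t
    rfl
  · intro d₀
    refine ⟨(hbc.lift d₀.liftKaehlerDifferential).compDer (D k T), ?_⟩
    ext r
    show hbc.lift d₀.liftKaehlerDifferential (D k T (algebraMap R T r)) = d₀ r
    rw [← KaehlerDifferential.map_D k k R T, hbc.lift_eq,
      Derivation.liftKaehlerDifferential_comp_D]

/-- The tangent spaces of `T` at `x'` and of `R` at the point below have the same dimension. -/
theorem finrank_derivation_of_formallyEtale [FormallyEtale R T] (x' : T →ₐ[k] k) :
    letI := pointModule x'
    letI := pointModule (pointRestrict (R := R) x')
    haveI := pointModule_isScalarTower x'
    haveI := pointModule_isScalarTower (pointRestrict (R := R) x')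
    haveI := pointModule_smulCommClass x'
    haveI := pointModule_smulCommClass (pointRestrict (R := R) x')
    Module.finrank k (Derivation k T k) = Module.finrank k (Derivation k R k) := by
  letI := pointModule x'
  letI := pointModule (pointRestrict (R := R) x')
  haveI := pointModule_isScalarTower x'
  haveI := pointModule_isScalarTower (pointRestrict (R := R) x')
  haveI := pointModule_smulCommClass x'
  haveI := pointModule_smulCommClass (pointRestrict (R := R) x')
  exact (LinearEquiv.ofBijective (derRestrict (R := R) x')
    (derRestrict_bijective (R := R) x')).finrank_eq

end Fermat.Agent.S27.H566
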