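import Mathlib

/-!
# S27 / J-DIM, algebra core (helper566): relative dimension from the tangent space at a point

`k` a field, `S` a standard smooth `k`-algebra, `x : S →ₐ[k] k` a `k`-point.  The tangent space
at `x` is `Der_k(S, k_x)` (`k_x` = `k` as an `S`-module through `x`).

* `finrank_derivation_eq_finrank_kaehler` : `dim_k Der_k(S, k_x) = rank_S Ω[S/k]` if `Ω` is
  finite free.
* `isStandardSmoothOfRelativeDimension_of_finrank_derivation` : if `S` is standard smooth and
  the tangent space at one `k`-point has dimension `g`, then `S` is standard smooth of relative
  dimension `g`.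
-/

set_option autoImplicit false
set_option linter.style.haveILetI false

namespace Fermat.Agent.S27.H566

open Algebra

variable {k S : Type*} [Field k] [CommRing S] [Algebra k S]

/-- `k` as an `S`-module through the `k`-point `x`. -/
@[reducible] def pointModule (x : S →ₐ[k] k) : Module S k := Module.compHom k x.toRingHom

theorem pointModule_smul (x : S →ₐ[k] k) (s : S) (a : k) :
    letI := pointModule x
    s • a = x s * a := rfl

theorem pointModule_isScalarTower (x : S →ₐ[k] k) :
    letI := pointModule x
    IsScalarTower k S k := by
  letI := pointModule x
  refine ⟨fun a s m => ?_⟩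
  show x (a • s) * m = a • (x s * m)
  rw [map_smul, smul_mul_assoc]

theorem pointModule_smulCommClass (x : S →ₐ[k] k) :
    letI := pointModule x
    SMulCommClass S k k := by
  letI := pointModule x
  refine ⟨fun s a m => ?_⟩
  show x s * (a • m) = a • (x s * m)
  rw [mul_smul_comm]

/-- The tangent space at a `k`-point of an algebra with finite free differentials has
dimension the rank of the differentials. -/
theorem finrank_derivation_eq_finrank_kaehler (x : S →ₐ[k] k) [Module.Free S Ω[S⁄k]]
    [Module.Finite S Ω[S⁄k]] :
    letI := pointModule x
    haveI := pointModule_isScalarTower x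
    Module.finrank k (Derivation k S k) = Module.finrank S Ω[S⁄k] := by
  letI := pointModule x
  haveI := pointModule_isScalarTower x
  haveI := pointModule_smulCommClass x
  haveI : Nontrivial S := x.toRingHom.domain_nontrivial
  classical
  let b := Module.Free.chooseBasis S Ω[S⁄k]
  -- `Der ≃ Hom_S(Ω, k)` is `k`-linear
  let e1 : (Ω[S⁄k] →ₗ[S] k) ≃ₗ[k] Derivation k S k :=
    { toFun := fun f => (KaehlerDifferential.linearMapEquivDerivation k S) f
      invFun := fun d => (KaehlerDifferential.linearMapEquivDerivation k S).symm d
      left_inv := fun f => (KaehlerDifferential.linearMapEquivDerivation k S).symm_apply_apply f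
      right_inv := fun d => (KaehlerDifferential.linearMapEquivDerivation k S).apply_symm_apply d
      map_add' := fun f g => map_add _ f g
      map_smul' := fun a f => by
        ext s
        simp only [KaehlerDifferential.linearMapEquivDerivation, RingHom.id_apply]
        rfl }
  let e2 : (Module.Free.ChooseBasisIndex S Ω[S⁄k] → k) ≃ₗ[k] (Ω[S⁄k] →ₗ[S] k) := b.constr k
  rw [← e1.finrank_eq, ← e2.finrank_eq, Module.finrank_pi, Module.finrank_eq_card_chooseBasisIndex]

/-- **Relative dimension from one tangent space.**  A nontrivial standard smooth `k`-algebra
whose tangent space at some `k`-point has dimension `g` is standard smooth of relative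
dimension `g`. -/
theorem isStandardSmoothOfRelativeDimension_of_finrank_derivation [IsStandardSmooth k S]
    (x : S →ₐ[k] k) (g : ℕ)
    (h : letI := pointModule x
      haveI := pointModule_isScalarTower x
      Module.finrank k (Derivation k S k) = g) :
    IsStandardSmoothOfRelativeDimension g k S := by
  haveI : Nontrivial S := x.toRingHom.domain_nontrivial
  haveI : Module.Finite S Ω[S⁄k] := inferInstance
  rw [IsStandardSmoothOfRelativeDimension.iff_of_isStandardSmooth]
  rw [finrank_derivation_eq_finrank_kaehler x] at h
  rw [← Module.finrank_eq_rank, h]

end Fermat.Agent.S27.H566
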